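import Fermat.Agent.JM27.Lc
import Fermat.Agent.JMod.H1Group

set_option autoImplicit false

/-! S25 block M: the class in `H1` of a Cartier datum on an integral scheme. -/

noncomputable section

universe u

open CategoryTheory CategoryTheory.Limits AlgebraicGeometry TopologicalSpace
open Fermat.Agent.JCd Fermat.Agent.JMod Fermat.Agent.JM

namespace Fermat.Agent.JM27

variable {X : Scheme.{u}} [IsIntegral X]

/-- the class of a Cartier datum -/
def cls (D : CD X) : H1 X := H1.mk (toLC D)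

/-- Cartier data which differ by units have the same class -/
theorem cls_congr {D E : CD X} (h : ∀ z, UAt z (D.f z / E.f z)) : cls D = cls E :=
  (H1.mk_eq_iff _ _).mpr (toLC_rel D E h)

theorem cls_oneCD : cls (oneCD X) = 1 := (H1.mk_eq_iff _ _).mpr toLC_one_rel

theorem cls_one {D : CD X} (h : ∀ z, UAt z (D.f z)) : cls D = 1 := by
  rw [← cls_oneCD]
  refine cls_congr fun z => ?_
  show UAt z (D.f z / 1)
  rw [div_one]
  exact h z

theorem cls_mul (D E : CD X) : cls (D.mul E) = cls D * cls E :=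
  (H1.mk_eq_iff _ _).mpr (toLC_mul_rel D E)

theorem cls_zpow_succ (D : CD X) (n : ℤ) : cls (D.zpow (n + 1)) = cls (D.zpow n) * cls D := by
  rw [← cls_mul]
  exact (H1.mk_eq_iff _ _).mpr (toLC_zpow_succ_rel D n)

theorem cls_zpow (D : CD X) (n : ℤ) : cls (D.zpow n) = cls D ^ n := by
  induction n using Int.induction_on with
  | zero => exact (H1.mk_eq_iff _ _).mpr (toLC_zpow_zero_rel D)
  | succ i hi => rw [cls_zpow_succ, hi, zpow_add_one]
  | pred i hi =>
    have h := cls_zpow_succ D (-(i : ℤ) - 1)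
    rw [sub_add_cancel, hi] at h
    rw [zpow_sub_one, h, mul_inv_cancel_right]

/-- every class is the class of a Cartier datum -/
theorem cls_surj (h : H1 X) : ∃ D : CD X, cls D = h := by
  obtain ⟨c, rfl⟩ := H1.exists_mk h
  obtain ⟨D, hD⟩ := exists_toLC_rel c
  exact ⟨D, (H1.mk_eq_iff _ _).mpr hD⟩

/-- pull-back of a class given by local equations on `P` and their transition units -/
theorem map_mk_eq_cls {P : Scheme.{u}} (φ : X ⟶ P) (c : LC P) (s : ∀ p, Γ(P, c.U p))
    (hs : ∀ p q, ores (inf_le_left : c.U p ⊓ c.U q ≤ c.U p) (s p) =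
      (c.g p q : Γ(P, c.U p ⊓ c.U q)) * ores (inf_le_right : c.U p ⊓ c.U q ≤ c.U q) (s q))
    (hne : ∀ z, pbf φ c s z ≠ 0) :
    H1.map φ (H1.mk c) = cls (pbCD φ c s hs hne) :=
  ((H1.mk_eq_iff _ _).mpr (toLC_pbCD_rel φ c s hs hne)).symm

/-- the same for a Cartier datum with the same local equations -/
theorem map_mk_eq_cls' {P : Scheme.{u}} (φ : X ⟶ P) (c : LC P) (s : ∀ p, Γ(P, c.U p))
    (hs : ∀ p q, ores (inf_le_left : c.U p ⊓ c.U q ≤ c.U p) (s p) =
      (c.g p q : Γ(P, c.U p ⊓ c.U q)) * ores (inf_le_right : c.U p ⊓ c.U q ≤ c.U q) (s q))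
    (D : CD X) (hD : ∀ z, D.f z = pbf φ c s z) :
    H1.map φ (H1.mk c) = cls D := by
  have hne : ∀ z, pbf φ c s z ≠ 0 := fun z => by rw [← hD]; exact D.ne z
  rw [map_mk_eq_cls φ c s hs hne]
  refine cls_congr fun z => ?_
  show UAt z (pbf φ c s z / D.f z)
  rw [hD, div_self (hne z)]
  exact UAt.one z

/-- if a pulled back local equation is generically nonzero somewhere, then everywhere -/
theorem pbf_ne_zero {P : Scheme.{u}} (φ : X ⟶ P) (c : LC P) (s : ∀ p, Γ(P, c.U p))
    (hs : ∀ p q, ores (inf_le_left : c.U p ⊓ c.U q ≤ c.U p) (s p) =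
      (c.g p q : Γ(P, c.U p ⊓ c.U q)) * ores (inf_le_right : c.U p ⊓ c.U q ≤ c.U q) (s q))
    {z₀ : X} (h : pbf φ c s z₀ ≠ 0) (z : X) : pbf φ c s z ≠ 0 := by
  intro h0
  apply h
  rw [pbf_eq φ c s hs z₀ z, h0, mul_zero]

end Fermat.Agent.JM27
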