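import Fermat.Agent.JM.Cart
import Fermat.Agent.JMod.H1Def

set_option autoImplicit false

/-! S25 block M: Cartier data on an integral scheme and cocycles of units. -/

noncomputable section

universe u

open CategoryTheory CategoryTheory.Limits AlgebraicGeometry TopologicalSpace
open Fermat.Agent.JCd Fermat.Agent.JMod Fermat.Agent.JM

namespace Fermat.Agent.JM27

variable {X : Scheme.{u}} [IsIntegral X]

/-- germ at the generic point -/
def gg (W : X.Opens) (hη : genericPoint X ∈ W) : Γ(X, W) →+* X.functionField :=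
  (X.presheaf.germ W (genericPoint X) hη).hom

theorem gg_def {W : X.Opens} (hη : genericPoint X ∈ W) (s : Γ(X, W)) :
    gg W hη s = X.presheaf.germ W (genericPoint X) hη s := rfl

theorem gg_ores {W W' : X.Opens} (h : W' ≤ W) (hη : genericPoint X ∈ W') (s : Γ(X, W)) :
    gg W' hη (ores h s) = gg W (h hη) s :=
  X.presheaf.germ_res_apply (homOfLE h) (genericPoint X) hη s

theorem gg_inj {W : X.Opens} (hη : genericPoint X ∈ W) {s t : Γ(X, W)}
    (h : gg W hη s = gg W hη t) : s = t := germ_gen_inj hη h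

theorem gg_unit_ne_zero {W : X.Opens} (hη : genericPoint X ∈ W) (u : Γ(X, W)ˣ) :
    gg W hη (u : Γ(X, W)) ≠ 0 := (u.isUnit.map (gg W hη)).ne_zero

theorem gg_ures {W W' : X.Opens} (h : W' ≤ W) (hη : genericPoint X ∈ W') (s : Γ(X, W)ˣ) :
    gg W' hη ((ures h s : Γ(X, W')ˣ) : Γ(X, W')) = gg W (h hη) (s : Γ(X, W)) := gg_ores h hη _

/-- two units on `W` agree if they agree generically on a bigger open set where they are defined -/
theorem ures_eq_of_gg {W W₀ : X.Opens} (hη : genericPoint X ∈ W₀) (h : W ≤ W₀)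
    (a b : Γ(X, W₀)ˣ) (hab : gg W₀ hη (a : Γ(X, W₀)) = gg W₀ hη (b : Γ(X, W₀))) :
    ures h a = ures h b := by
  rw [Units.ext (gg_inj hη hab)]

section toLC

variable (D : CD X)

theorem gp_mem (x y : X) : genericPoint X ∈ D.U x ⊓ D.U y :=
  ⟨genericPoint_mem (D.mem x), genericPoint_mem (D.mem y)⟩

theorem exists_g (x y : X) : ∃ u : Γ(X, D.U x ⊓ D.U y)ˣ,
    gg _ (gp_mem D x y) (u : Γ(X, D.U x ⊓ D.U y)) = D.f x / D.f y :=
  exists_unit (D.U x ⊓ D.U y) (gp_mem D x y) _ fun z hz => D.compat x y z hz.1 hz.2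

/-- the transition functions of a Cartier datum -/
def gU (x y : X) : Γ(X, D.U x ⊓ D.U y)ˣ := (exists_g D x y).choose

theorem gg_gU (x y : X) : gg _ (gp_mem D x y) (gU D x y : Γ(X, D.U x ⊓ D.U y)) =
    D.f x / D.f y := (exists_g D x y).choose_spec

/-- the cocycle of units of a Cartier datum -/
def toLC : LC X where
  U := D.U
  mem := D.mem
  g := gU D
  cocycle x y z W hx hy hz := by
    have hη : genericPoint X ∈ D.U x ⊓ D.U y ⊓ D.U z :=
      ⟨gp_mem D x y, genericPoint_mem (D.mem z)⟩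
    have hW : W ≤ D.U x ⊓ D.U y ⊓ D.U z := le_inf (le_inf hx hy) hz
    have h1 : D.U x ⊓ D.U y ⊓ D.U z ≤ D.U x ⊓ D.U y := inf_le_left
    have h2 : D.U x ⊓ D.U y ⊓ D.U z ≤ D.U y ⊓ D.U z :=
      le_inf (inf_le_left.trans inf_le_right) inf_le_right
    have h3 : D.U x ⊓ D.U y ⊓ D.U z ≤ D.U x ⊓ D.U z :=
      le_inf (inf_le_left.trans inf_le_left) inf_le_right
    have key := ures_eq_of_gg hη hW (ures h1 (gU D x y) * ures h2 (gU D y z))
      (ures h3 (gU D x z)) (by
        rw [Units.val_mul, map_mul, gg_ures, gg_ures, gg_ures, gg_gU, gg_gU, gg_gU]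
        exact div_mul_div_cancel₀ (D.ne y))
    rw [map_mul, ures_ures, ures_ures, ures_ures] at key
    exact key

@[simp] theorem toLC_U (x : X) : (toLC D).U x = D.U x := rfl
theorem toLC_g (x y : X) : (toLC D).g x y = gU D x y := rfl

end toLC

section Rel

theorem gp_mem' (c : LC X) (x y : X) : genericPoint X ∈ c.U x ⊓ c.U y :=
  ⟨genericPoint_mem (c.mem x), genericPoint_mem (c.mem y)⟩

/-- the transition functions in the function field -/
def gf (c : LC X) (x y : X) : X.functionField :=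
  gg _ (gp_mem' c x y) (c.g x y : Γ(X, c.U x ⊓ c.U y))

theorem gg_gr (c : LC X) (x y : X) {W : X.Opens} (hη : genericPoint X ∈ W) (hx : W ≤ c.U x)
    (hy : W ≤ c.U y) : gg W hη (c.gr x y hx hy : Γ(X, W)) = gf c x y :=
  gg_ures (le_inf hx hy) hη _

theorem gf_ne_zero (c : LC X) (x y : X) : gf c x y ≠ 0 := gg_unit_ne_zero _ _

theorem gf_mul (c : LC X) (x y z : X) : gf c x y * gf c y z = gf c x z := by
  have hη : genericPoint X ∈ c.U x ⊓ c.U y ⊓ c.U z :=
    ⟨gp_mem' c x y, genericPoint_mem (c.mem z)⟩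
  have h1 : c.U x ⊓ c.U y ⊓ c.U z ≤ c.U x := inf_le_left.trans inf_le_left
  have h2 : c.U x ⊓ c.U y ⊓ c.U z ≤ c.U y := inf_le_left.trans inf_le_right
  have h3 : c.U x ⊓ c.U y ⊓ c.U z ≤ c.U z := inf_le_right
  have := congrArg (fun u : Γ(X, c.U x ⊓ c.U y ⊓ c.U z)ˣ =>
    gg _ hη (u : Γ(X, c.U x ⊓ c.U y ⊓ c.U z))) (c.gr_mul x y z h1 h2 h3)
  simp only [Units.val_mul, map_mul, gg_gr] at this
  exact this

theorem gf_toLC (D : CD X) (x y : X) : gf (toLC D) x y = D.f x / D.f y := gg_gU D x y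

theorem gf_mulLC (c c' : LC X) (x y : X) : gf (c.mul c') x y = gf c x y * gf c' x y := by
  rw [← gg_gr (c.mul c') x y (gp_mem' (c.mul c') x y) inf_le_left inf_le_right, LC.mul_gr,
    Units.val_mul, map_mul, gg_gr, gg_gr]

theorem gf_inv (c : LC X) (x y : X) : gf c.inv x y = (gf c x y)⁻¹ := by
  have h1 : gf c.inv x y * gf c x y = 1 := by
    rw [← gg_gr c.inv x y (gp_mem' c x y) inf_le_left inf_le_right, LC.inv_gr c x y inf_le_left
      inf_le_right, ← gg_gr c x y (gp_mem' c x y) inf_le_left inf_le_right, ← map_mul,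
      Units.inv_mul, map_one]
  exact eq_inv_of_mul_eq_one_left h1

theorem gf_one (x y : X) : gf (LC.one X) x y = 1 := by
  unfold gf
  show gg _ _ ((1 : Γ(X, (LC.one X).U x ⊓ (LC.one X).U y)ˣ) :
    Γ(X, (LC.one X).U x ⊓ (LC.one X).U y)) = 1
  rw [Units.val_one, map_one]

/-- cocycles are cohomologous if they are so generically -/
theorem rel_of_gf (c c' : LC X) (r : X → X.functionField)
    (hr : ∀ x, ∃ V : X.Opens, x ∈ V ∧ ∀ z ∈ V, UAt z (r x))
    (h : ∀ x y, gf c x y * r y = r x * gf c' x y) : c.Rel c' := by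
  choose V₀ hV₀ hu using hr
  let V : X → X.Opens := fun x => V₀ x ⊓ (c.U x ⊓ c'.U x)
  have hη : ∀ x, genericPoint X ∈ V x := fun x =>
    ⟨genericPoint_mem (hV₀ x), genericPoint_mem (c.mem x), genericPoint_mem (c'.mem x)⟩
  have hex : ∀ x, ∃ u : Γ(X, V x)ˣ, gg _ (hη x) (u : Γ(X, V x)) = r x := fun x =>
    exists_unit (V x) (hη x) (r x) fun z hz => hu x z hz.1
  choose u hu' using hex
  have h1 : ∀ x, V x ≤ c.U x := fun x => inf_le_right.trans inf_le_left
  have h2 : ∀ x, V x ≤ c'.U x := fun x => inf_le_right.trans inf_le_right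
  refine ⟨V, fun x => ⟨hV₀ x, c.mem x, c'.mem x⟩, h1, h2, u, fun x y W hx hy => ?_⟩
  have hη2 : genericPoint X ∈ V x ⊓ V y := ⟨hη x, hη y⟩
  have hl : V x ⊓ V y ≤ V x := inf_le_left
  have hr : V x ⊓ V y ≤ V y := inf_le_right
  have key := ures_eq_of_gg hη2 (le_inf hx hy)
    (c.gr x y (hl.trans (h1 x)) (hr.trans (h1 y)) * ures hr (u y))
    (ures hl (u x) * c'.gr x y (hl.trans (h2 x)) (hr.trans (h2 y))) (by
      rw [Units.val_mul, Units.val_mul, map_mul, map_mul, gg_gr, gg_gr, gg_ures, gg_ures, hu', hu']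
      exact h x y)
  rw [map_mul, map_mul, ures_ures, ures_ures, LC.ures_gr, LC.ures_gr] at key
  exact key

theorem rel_of_gf_eq (c c' : LC X) (h : ∀ x y, gf c x y = gf c' x y) : c.Rel c' :=
  rel_of_gf c c' (fun _ => 1) (fun x => ⟨⊤, trivial, fun z _ => UAt.one z⟩)
    fun x y => by rw [h, mul_one, one_mul]

end Rel

section CD

/-- Cartier data which differ by units are cohomologous -/
theorem toLC_rel (D E : CD X) (h : ∀ z, UAt z (D.f z / E.f z)) : (toLC D).Rel (toLC E) := by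
  refine rel_of_gf _ _ (fun x => D.f x / E.f x) (fun x => ⟨D.U x ⊓ E.U x, ⟨D.mem x, E.mem x⟩,
    fun z hz => ?_⟩) fun x y => ?_
  · have h1 := ((D.compat x z z hz.1 (D.mem z)).mul (h z)).mul (E.compat z x z (E.mem z) hz.2)
    have h2 : D.f x / D.f z * (D.f z / E.f z) * (E.f z / E.f x) = D.f x / E.f x := by
      rw [div_mul_div_cancel₀ (D.ne z), div_mul_div_cancel₀ (E.ne z)]
    rwa [h2] at h1
  · rw [gf_toLC, gf_toLC, div_mul_div_cancel₀ (D.ne y), div_mul_div_cancel₀ (E.ne x)]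

/-- the trivial Cartier datum -/
def oneCD (X : Scheme.{u}) [IsIntegral X] : CD X where
  U _ := ⊤
  mem _ := trivial
  f _ := 1
  compat x y z _ _ := by rw [div_one]; exact UAt.one z
  ne _ := one_ne_zero

theorem toLC_one_rel : (toLC (oneCD X)).Rel (LC.one X) :=
  rel_of_gf_eq _ _ fun x y => by
    rw [gf_toLC, gf_one]
    exact div_one _

theorem toLC_mul_rel (D E : CD X) : (toLC (D.mul E)).Rel ((toLC D).mul (toLC E)) :=
  rel_of_gf_eq _ _ fun x y => by
    rw [gf_toLC, gf_mulLC, gf_toLC, gf_toLC]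
    exact mul_div_mul_comm _ _ _ _

theorem toLC_zpow_succ_rel (D : CD X) (n : ℤ) :
    (toLC (D.zpow (n + 1))).Rel (toLC ((D.zpow n).mul D)) :=
  rel_of_gf_eq _ _ fun x y => by
    rw [gf_toLC, gf_toLC]
    show D.f x ^ (n + 1) / D.f y ^ (n + 1) = (D.f x ^ n * D.f x) / (D.f y ^ n * D.f y)
    rw [zpow_add_one₀ (D.ne x), zpow_add_one₀ (D.ne y)]

theorem toLC_zpow_zero_rel (D : CD X) : (toLC (D.zpow 0)).Rel (LC.one X) :=
  rel_of_gf_eq _ _ fun x y => by
    rw [gf_toLC, gf_one]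
    show D.f x ^ (0 : ℤ) / D.f y ^ (0 : ℤ) = 1
    rw [zpow_zero, zpow_zero, div_one]

/-- every cocycle of units is given by a Cartier datum -/
theorem exists_toLC_rel (c : LC X) : ∃ D : CD X, (toLC D).Rel c := by
  refine ⟨{ U := c.U, mem := c.mem, f := fun x => gf c x (genericPoint X), compat := ?_,
            ne := fun x => gf_ne_zero c x _ }, rel_of_gf_eq _ _ fun x y => ?_⟩
  · intro x y z hx hy
    have h1 : gf c x (genericPoint X) / gf c y (genericPoint X) = gf c x y := by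
      rw [div_eq_iff (gf_ne_zero c y _), gf_mul]
    rw [h1]
    exact uAt_germ (W := c.U x ⊓ c.U y) ⟨hx, hy⟩ (c.g x y)
  · rw [gf_toLC, div_eq_iff (gf_ne_zero c y _), gf_mul]

end CD

section Pb

variable {P : Scheme.{u}} (φ : X ⟶ P) (c : LC P) (s : ∀ p, Γ(P, c.U p))
  (hs : ∀ p q, ores (inf_le_left : c.U p ⊓ c.U q ≤ c.U p) (s p) =
    (c.g p q : Γ(P, c.U p ⊓ c.U q)) * ores (inf_le_right : c.U p ⊓ c.U q ≤ c.U q) (s q))

/-- germ at the generic point of the pull-back of the local equation `s p` -/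
def pbf (z : X) : X.functionField :=
  gg (φ ⁻¹ᵁ c.U (φ z)) (genericPoint_mem ((c.pb φ).mem z)) (opb φ le_rfl (s (φ z)))

include hs in
theorem pbf_eq (z w : X) : pbf φ c s z = gf (c.pb φ) z w * pbf φ c s w := by
  have hη := gp_mem' (c.pb φ) z w
  have hl : (c.pb φ).U z ⊓ (c.pb φ).U w ≤ (c.pb φ).U z := inf_le_left
  have hr : (c.pb φ).U z ⊓ (c.pb φ).U w ≤ (c.pb φ).U w := inf_le_right
  have hle : (c.pb φ).U z ⊓ (c.pb φ).U w ≤ φ ⁻¹ᵁ (c.U (φ z) ⊓ c.U (φ w)) := le_rfl
  have h1 : pbf φ c s z = gg _ hη (opb φ hle (ores inf_le_left (s (φ z)))) := by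
    rw [opb_ores]
    exact (gg_ores hl hη _).symm.trans (congrArg (gg _ hη) (ores_opb φ _ hl _))
  have h2 : pbf φ c s w = gg _ hη (opb φ hle (ores inf_le_right (s (φ w)))) := by
    rw [opb_ores]
    exact (gg_ores hr hη _).symm.trans (congrArg (gg _ hη) (ores_opb φ _ hr _))
  have h3 : gf (c.pb φ) z w = gg _ hη (opb φ hle (c.g (φ z) (φ w) :
      Γ(P, c.U (φ z) ⊓ c.U (φ w)))) := rfl
  rw [h1, h2, h3, ← map_mul, ← map_mul, hs]

/-- the pull-back of Cartier data given by local equations on `P` and their transition units -/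
def pbCD (hne : ∀ z, pbf φ c s z ≠ 0) : CD X where
  U z := φ ⁻¹ᵁ c.U (φ z)
  mem z := c.mem (φ z)
  f := pbf φ c s
  compat x y z hx hy := by
    have h1 : pbf φ c s x / pbf φ c s y = gf (c.pb φ) x y := by
      rw [div_eq_iff (hne y)]
      exact pbf_eq φ c s hs x y
    rw [h1]
    exact uAt_germ (W := (c.pb φ).U x ⊓ (c.pb φ).U y) ⟨hx, hy⟩ ((c.pb φ).g x y)
  ne := hne

theorem toLC_pbCD_rel (hne : ∀ z, pbf φ c s z ≠ 0) :
    (toLC (pbCD φ c s hs hne)).Rel (c.pb φ) :=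
  rel_of_gf_eq _ _ fun x y => by
    rw [gf_toLC]
    show pbf φ c s x / pbf φ c s y = _
    rw [div_eq_iff (hne y)]
    exact pbf_eq φ c s hs x y

end Pb

end Fermat.Agent.JM27
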